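/-
S18lib / LD / RootCount  (helper5)

Root count in a residue disc (the "Newton polygon" input of the local discriminant identity):
for a valuation subring `A` of an algebraically closed field `L`, a polynomial `D ∈ A[X]` with
nonzero reduction `D̄ ∈ k[X]` and `c ∈ A`, the multiplicity of `c̄` as a root of `D̄` equals the number
of roots `β` of `D` in `L` (with multiplicity) lying in `A` with `β̄ = c̄`.
-/
import Mathlib

set_option autoImplicit false

open Polynomial

noncomputable section

namespace Fermat.Agent.S18lib.LD

variable {L : Type*} [Field L] (A : ValuationSubring L)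

local notation "k" => IsLocalRing.ResidueField A
local notation "res" => IsLocalRing.residue A

/-- `β` lies in the residue disc of `c` -/
def InDisc (c : A) (β : L) : Prop := ∃ h : β ∈ A, res ⟨β, h⟩ = res c

variable {A}

theorem inDisc_coe (c β : A) : InDisc A c (β : L) ↔ res β = res c := by
  constructor
  · rintro ⟨h, hβ⟩
    exact hβ
  · intro h
    exact ⟨β.2, h⟩

theorem map_subtype_injective :
    Function.Injective (Polynomial.map (A.subtype) : A[X] → L[X]) :=
  Polynomial.map_injective _ Subtype.val_injective

/-- a root in `L` of `D ∈ A[X]` which lies in `A` is a root in `A` -/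
theorem isRoot_of_isRoot_map {D : A[X]} {β : A} (h : (D.map A.subtype).IsRoot (A.subtype β)) :
    D.IsRoot β := by
  rw [IsRoot.def] at h ⊢
  have h2 : (D.map A.subtype).eval (A.subtype β) = A.subtype (D.eval β) := by
    rw [Polynomial.eval_map, Polynomial.eval₂_at_apply]
  have h3 : A.subtype (D.eval β) = 0 := h2.symm.trans h
  exact (map_eq_zero_iff _ A.subtype_injective).mp h3

variable [IsAlgClosed L]

/-- A polynomial over `A` with nonzero reduction and no root in `A` reduces to a constant. -/
theorem map_residue_eq_C_of_no_root (D : A[X]) (hD : D.map res ≠ 0)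
    (hno : ∀ β : A, ¬ D.IsRoot β) : D.map res = C (res (D.coeff 0)) := by
  classical
  set p : L[X] := D.map A.subtype with hp
  have hD0 : D ≠ 0 := by
    rintro rfl
    exact hD (Polynomial.map_zero _)
  have hp0 : p ≠ 0 := by
    intro h
    apply hD0
    apply map_subtype_injective
    rw [← hp, h, Polynomial.map_zero]
  -- all roots of `p` are outside `A`
  have hout : ∀ β ∈ p.roots, β ∉ A := by
    intro β hβ hβA
    have hroot : p.IsRoot β := (Polynomial.mem_roots hp0).mp hβ
    exact hno ⟨β, hβA⟩ (isRoot_of_isRoot_map (β := ⟨β, hβA⟩) hroot)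
  have hinv : ∀ β ∈ p.roots, β⁻¹ ∈ A := fun β hβ =>
    (A.mem_or_inv_mem β).resolve_left (hout β hβ)
  have hne : ∀ β ∈ p.roots, β ≠ 0 := by
    intro β hβ h0
    exact hout β hβ (h0 ▸ A.zero_mem)
  -- the inverse roots, as elements of the maximal ideal of `A`
  let γ : {β // β ∈ p.roots} → A := fun β => ⟨(β : L)⁻¹, hinv β β.2⟩
  have hγmax : ∀ β : {β // β ∈ p.roots}, γ β ∈ IsLocalRing.maximalIdeal A := by
    intro β
    rw [IsLocalRing.mem_maximalIdeal, mem_nonunits_iff]
    intro hu
    apply hout β β.2
    obtain ⟨u, hu⟩ := hu
    have h1 : ((u⁻¹ : Aˣ) : A) * γ β = 1 := by rw [← hu]; exact Units.inv_mul u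
    have h2 : (((u⁻¹ : Aˣ) : A) : L) * (β : L)⁻¹ = 1 := by
      have := congrArg Subtype.val h1
      simpa [γ] using this
    have h3 : (((u⁻¹ : Aˣ) : A) : L) = (β : L) := by
      have hb := hne β β.2
      field_simp at h2
      exact h2
    rw [← h3]
    exact ((u⁻¹ : Aˣ) : A).2
  -- the product `G = ∏ (1 - γ X)` over `A`
  set G : A[X] := (p.roots.attach.map
    (fun β : {β // β ∈ p.roots} => (1 - C (γ β) * X : A[X]))).prod with hG
  have hGres : G.map res = 1 := by
    rw [hG, Polynomial.map_multiset_prod, Multiset.map_map]
    apply Multiset.prod_eq_one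
    intro f hf
    obtain ⟨β, -, rfl⟩ := Multiset.mem_map.mp hf
    simp only [Function.comp_apply, Polynomial.map_sub, Polynomial.map_one, Polynomial.map_mul,
      Polynomial.map_C, Polynomial.map_X]
    rw [(IsLocalRing.residue_eq_zero_iff _).mpr (hγmax β), map_zero, zero_mul, sub_zero]
  have hGL : G.map A.subtype = (p.roots.attach.map
      (fun β : {β // β ∈ p.roots} => (1 - C ((β : L)⁻¹) * X : L[X]))).prod := by
    rw [hG, Polynomial.map_multiset_prod, Multiset.map_map]
    congr 1
    refine Multiset.map_congr rfl fun β _ => ?_
    simp only [Function.comp_apply, Polynomial.map_sub, Polynomial.map_one, Polynomial.map_mul,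
      Polynomial.map_C, Polynomial.map_X]
    rfl
  -- `p = C a * ∏ (1 - β⁻¹ X)`
  have hsplit : p = C p.leadingCoeff * (p.roots.map (fun a => X - C a)).prod :=
    (Polynomial.C_leadingCoeff_mul_prod_multiset_X_sub_C
      ((Polynomial.splits_iff_card_roots).mp (IsAlgClosed.splits p))).symm
  have hattach : (p.roots.map (fun a => X - C a)).prod =
      (p.roots.attach.map (fun β : {β // β ∈ p.roots} => (X - C (β : L) : L[X]))).prod := by
    conv_lhs => rw [← Multiset.attach_map_val p.roots, Multiset.map_map]
    rfl
  have hfac : ∀ β : {β // β ∈ p.roots}, (X - C (β : L) : L[X]) =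
      C (-(β : L)) * (1 - C ((β : L)⁻¹) * X) := by
    intro β
    have hb := hne β β.2
    have h1 : (C (-(β : L)) * C ((β : L)⁻¹) : L[X]) = -1 := by
      rw [← C_mul, neg_mul, mul_inv_cancel₀ hb, C_neg, C_1]
    calc (X - C (β : L) : L[X]) = C (-(β : L)) - (-1) * X := by rw [C_neg]; ring
      _ = C (-(β : L)) - (C (-(β : L)) * C ((β : L)⁻¹)) * X := by rw [h1]
      _ = C (-(β : L)) * (1 - C ((β : L)⁻¹) * X) := by ring
  have hprod : (p.roots.attach.map (fun β : {β // β ∈ p.roots} => (X - C (β : L) : L[X]))).prod =
      C ((p.roots.attach.map (fun β : {β // β ∈ p.roots} => -(β : L))).prod) *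
        (p.roots.attach.map
          (fun β : {β // β ∈ p.roots} => (1 - C ((β : L)⁻¹) * X : L[X]))).prod := by
    rw [Multiset.map_congr rfl (fun β _ => hfac β), Multiset.prod_map_mul]
    congr 1
    have := (map_multiset_prod (C : L →+* L[X])
      (p.roots.attach.map (fun β : {β // β ∈ p.roots} => -(β : L)))).symm
    rw [Multiset.map_map] at this
    exact this
  have hpa : ∃ a : L, p = C a * G.map A.subtype := by
    refine ⟨p.leadingCoeff *
      (p.roots.attach.map (fun β : {β // β ∈ p.roots} => -(β : L))).prod, ?_⟩
    rw [hGL, C_mul, mul_assoc, ← hprod, ← hattach]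
    exact hsplit
  obtain ⟨a, ha⟩ := hpa
  -- `G(0) = 1`
  have hG0 : G.coeff 0 = 1 := by
    rw [Polynomial.coeff_zero_eq_eval_zero, hG, Polynomial.eval_multiset_prod, Multiset.map_map]
    apply Multiset.prod_eq_one
    intro f hf
    obtain ⟨β, -, rfl⟩ := Multiset.mem_map.mp hf
    simp
  have ha0 : a = ((D.coeff 0 : A) : L) := by
    have h1 : p.coeff 0 = a * (G.map A.subtype).coeff 0 := by
      conv_lhs => rw [ha]
      rw [Polynomial.coeff_C_mul]
    have h2 : (G.map A.subtype).coeff 0 = 1 := by
      rw [Polynomial.coeff_map, hG0, map_one]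
    have h3 : p.coeff 0 = ((D.coeff 0 : A) : L) := by
      rw [hp, Polynomial.coeff_map]; rfl
    rw [h2, mul_one, h3] at h1
    exact h1.symm
  have hDG : D = C (D.coeff 0) * G := by
    apply map_subtype_injective
    rw [Polynomial.map_mul, Polynomial.map_C, ← hp, ha, ha0]
    rfl
  conv_lhs => rw [hDG]
  rw [Polynomial.map_mul, hGres, mul_one, Polynomial.map_C]

/-- **Root count in a residue disc.** -/
theorem rootMultiplicity_map_residue :
    ∀ (n : ℕ) (D : A[X]), D.natDegree ≤ n → D.map res ≠ 0 → ∀ c : A,
      (D.map res).rootMultiplicity (res c) =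
        letI := Classical.decPred (InDisc A c)
        ((D.map A.subtype).roots.filter (InDisc A c)).card := by
  classical
  intro n
  induction n with
  | zero =>
    intro D hdeg hD c
    have hDC : D = C (D.coeff 0) := Polynomial.eq_C_of_natDegree_le_zero hdeg
    have h1 : (D.map A.subtype).roots = 0 := by
      rw [hDC, Polynomial.map_C]; exact Polynomial.roots_C _
    have h2 : (D.map res).rootMultiplicity (res c) = 0 := by
      rw [Polynomial.rootMultiplicity_eq_zero_iff]
      intro hroot
      exfalso
      rw [hDC, Polynomial.map_C] at hroot hD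
      rw [IsRoot.def, eval_C] at hroot
      rw [hroot, C_0] at hD
      exact hD rfl
    rw [h1, h2]
    simp
  | succ n ih =>
    intro D hdeg hD c
    have hD0 : D ≠ 0 := by
      rintro rfl
      exact hD (Polynomial.map_zero _)
    by_cases hroot : ∃ β : A, D.IsRoot β
    · obtain ⟨β, hβ⟩ := hroot
      obtain ⟨D₁, hD₁⟩ : ∃ D₁ : A[X], D = (X - C β) * D₁ := by
        have := (Polynomial.dvd_iff_isRoot).mpr hβ
        exact this
      have hD₁0 : D₁ ≠ 0 := by
        rintro rfl
        exact hD0 (by rw [hD₁, mul_zero])
      have hdeg₁ : D₁.natDegree ≤ n := by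
        have h1 : D.natDegree = (X - C β).natDegree + D₁.natDegree := by
          rw [hD₁]
          exact Polynomial.natDegree_mul (Polynomial.X_sub_C_ne_zero β) hD₁0
        rw [Polynomial.natDegree_X_sub_C] at h1
        omega
      have hmapres : D.map res = (X - C (res β)) * D₁.map res := by
        rw [hD₁, Polynomial.map_mul, Polynomial.map_sub, Polynomial.map_X, Polynomial.map_C]
      have hD₁res : D₁.map res ≠ 0 := by
        intro h
        apply hD
        rw [hmapres, h, mul_zero]
      have hmapL : D.map A.subtype = (X - C (β : L)) * D₁.map A.subtype := by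
        rw [hD₁, Polynomial.map_mul, Polynomial.map_sub, Polynomial.map_X, Polynomial.map_C]
        rfl
      have hmapL0 : (X - C (β : L)) * D₁.map A.subtype ≠ 0 := by
        rw [← hmapL]
        intro h
        apply hD0
        apply map_subtype_injective
        rw [h, Polynomial.map_zero]
      have ih' := ih D₁ hdeg₁ hD₁res c
      rw [hmapres, Polynomial.rootMultiplicity_mul (by rw [← hmapres]; exact hD),
        Polynomial.rootMultiplicity_X_sub_C, ih', hmapL, Polynomial.roots_mul hmapL0,
        Polynomial.roots_X_sub_C, Multiset.filter_add, Multiset.card_add]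
      congr 1
      by_cases hc : res c = res β
      · rw [if_pos hc]
        have : InDisc A c (β : L) := (inDisc_coe c β).mpr hc.symm
        rw [Multiset.filter_singleton, if_pos this, Multiset.card_singleton]
      · rw [if_neg hc]
        have : ¬ InDisc A c (β : L) := fun h => hc ((inDisc_coe c β).mp h).symm
        rw [Multiset.filter_singleton, if_neg this]
        rfl
    · push Not at hroot
      have hconst := map_residue_eq_C_of_no_root D hD hroot
      have h2 : (D.map res).rootMultiplicity (res c) = 0 := by
        rw [Polynomial.rootMultiplicity_eq_zero_iff]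
        intro hr
        exfalso
        rw [hconst] at hr hD
        rw [IsRoot.def, eval_C] at hr
        rw [hr, C_0] at hD
        exact hD rfl
      have h1 : (D.map A.subtype).roots.filter (InDisc A c) = 0 := by
        rw [Multiset.filter_eq_nil]
        rintro β hβ ⟨hβA, -⟩
        have hp0 : D.map A.subtype ≠ 0 := by
          intro h
          apply hD0
          apply map_subtype_injective
          rw [h, Polynomial.map_zero]
        have hr : (D.map A.subtype).IsRoot β := (Polynomial.mem_roots hp0).mp hβ
        exact hroot ⟨β, hβA⟩ (isRoot_of_isRoot_map (β := ⟨β, hβA⟩) hr)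
      rw [h2, h1, Multiset.card_zero]

/-- **Root count in a residue disc**, final form. -/
theorem rootMultiplicity_map_residue_eq (D : A[X]) (hD : D.map res ≠ 0) (c : A) :
    (D.map res).rootMultiplicity (res c) =
      letI := Classical.decPred (InDisc A c)
      ((D.map A.subtype).roots.filter (InDisc A c)).card :=
  rootMultiplicity_map_residue _ D le_rfl hD c

/-- The degree of the reduction counts the roots lying in `A` (the others reduce to `∞`). -/
theorem natDegree_map_residue :
    ∀ (n : ℕ) (D : A[X]), D.natDegree ≤ n → D.map res ≠ 0 →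
      (D.map res).natDegree =
        letI := Classical.decPred (fun β : L => β ∈ A)
        ((D.map A.subtype).roots.filter (fun β : L => β ∈ A)).card := by
  classical
  intro n
  induction n with
  | zero =>
    intro D hdeg hD
    have hDC : D = C (D.coeff 0) := Polynomial.eq_C_of_natDegree_le_zero hdeg
    have h1 : (D.map A.subtype).roots = 0 := by
      rw [hDC, Polynomial.map_C]; exact Polynomial.roots_C _
    have h2 : (D.map res).natDegree = 0 := by
      rw [hDC, Polynomial.map_C]; exact Polynomial.natDegree_C _
    rw [h1, h2]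
    simp
  | succ n ih =>
    intro D hdeg hD
    have hD0 : D ≠ 0 := by
      rintro rfl
      exact hD (Polynomial.map_zero _)
    by_cases hroot : ∃ β : A, D.IsRoot β
    · obtain ⟨β, hβ⟩ := hroot
      obtain ⟨D₁, hD₁⟩ : ∃ D₁ : A[X], D = (X - C β) * D₁ := (Polynomial.dvd_iff_isRoot).mpr hβ
      have hD₁0 : D₁ ≠ 0 := by
        rintro rfl
        exact hD0 (by rw [hD₁, mul_zero])
      have hdeg₁ : D₁.natDegree ≤ n := by
        have h1 : D.natDegree = (X - C β).natDegree + D₁.natDegree := by
          rw [hD₁]
          exact Polynomial.natDegree_mul (Polynomial.X_sub_C_ne_zero β) hD₁0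
        rw [Polynomial.natDegree_X_sub_C] at h1
        omega
      have hmapres : D.map res = (X - C (res β)) * D₁.map res := by
        rw [hD₁, Polynomial.map_mul, Polynomial.map_sub, Polynomial.map_X, Polynomial.map_C]
      have hD₁res : D₁.map res ≠ 0 := by
        intro h
        apply hD
        rw [hmapres, h, mul_zero]
      have hmapL : D.map A.subtype = (X - C (β : L)) * D₁.map A.subtype := by
        rw [hD₁, Polynomial.map_mul, Polynomial.map_sub, Polynomial.map_X, Polynomial.map_C]
        rfl
      have hmapL0 : (X - C (β : L)) * D₁.map A.subtype ≠ 0 := by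
        rw [← hmapL]
        intro h
        apply hD0
        apply map_subtype_injective
        rw [h, Polynomial.map_zero]
      have ih' := ih D₁ hdeg₁ hD₁res
      rw [hmapres, Polynomial.natDegree_mul (Polynomial.X_sub_C_ne_zero _) hD₁res,
        Polynomial.natDegree_X_sub_C, ih', hmapL, Polynomial.roots_mul hmapL0,
        Polynomial.roots_X_sub_C, Multiset.filter_add, Multiset.card_add,
        Multiset.filter_singleton, if_pos β.2, Multiset.card_singleton]
    · push Not at hroot
      have hconst := map_residue_eq_C_of_no_root D hD hroot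
      have h1 : (D.map A.subtype).roots.filter (fun β : L => β ∈ A) = 0 := by
        rw [Multiset.filter_eq_nil]
        intro β hβ hβA
        have hp0 : D.map A.subtype ≠ 0 := by
          intro h
          apply hD0
          apply map_subtype_injective
          rw [h, Polynomial.map_zero]
        have hr : (D.map A.subtype).IsRoot β := (Polynomial.mem_roots hp0).mp hβ
        exact hroot ⟨β, hβA⟩ (isRoot_of_isRoot_map (β := ⟨β, hβA⟩) hr)
      rw [h1, hconst, Polynomial.natDegree_C, Multiset.card_zero]

end Fermat.Agent.S18lib.LD
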